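/-
T1B / EMBED44, `E[p]`-side, GENERIC BASE CHANGE (helper78).  Pure Mathlib.

`k → D` fields, `G` a group, `V` finite over `k`, `ρ : G →* End_k V`.  The representation
`rhoBC D ρ : G →* End_D (D ⊗[k] V)`, `g ↦ (ρ g).baseChange D`, inherits the hypotheses
`hV / hspan / hcont / hchar` of `GBLR83.Tate.exists_embedding` from `ρ`:

* `finrank_bc`       : `finrank D (D ⊗[k] V) = finrank k V`;
* `span_bc`          : `span k (range ρ) = ⊤ → span D (range (rhoBC D ρ)) = ⊤`;
* `charpoly_bc`      : `(rhoBC D ρ g).charpoly = (ρ g).charpoly.map (algebraMap k D)`,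
  `charpoly_bc_quad` : the `X² − a X + ℓ` form;
* `eq_one_bc`        : `ρ g = 1 → rhoBC D ρ g = 1`  (so "factors through a number field" transfers);
* `incl k D : V →+ D ⊗[k] V`, `x ↦ 1 ⊗ x`, injective and equivariant.
-/
import Mathlib

set_option autoImplicit false

noncomputable section

namespace Fermat.Agent.T1B.Embed78.BaseChange

open TensorProduct Polynomial Module

variable {k : Type*} [Field k] (D : Type*) [Field D] [Algebra k D]
variable {G : Type*} [Group G] {V : Type*} [AddCommGroup V] [Module k V]

/-- The base change of a representation along `k → D`. -/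
def rhoBC (ρ : G →* Module.End k V) : G →* Module.End D (D ⊗[k] V) :=
  ((Module.End.baseChangeHom k D V : Module.End k V →ₐ[k] Module.End D (D ⊗[k] V)) :
    Module.End k V →* Module.End D (D ⊗[k] V)).comp ρ

theorem rhoBC_apply (ρ : G →* Module.End k V) (g : G) :
    rhoBC D ρ g = (ρ g).baseChange D := rfl

@[simp]
theorem rhoBC_apply_tmul (ρ : G →* Module.End k V) (g : G) (d : D) (x : V) :
    rhoBC D ρ g (d ⊗ₜ[k] x) = d ⊗ₜ[k] ρ g x := by
  rw [rhoBC_apply, LinearMap.baseChange_tmul]

/-- triviality transfers (so `hcont` transfers verbatim). -/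
theorem eq_one_bc (ρ : G →* Module.End k V) {g : G} (h : ρ g = 1) : rhoBC D ρ g = 1 := by
  rw [rhoBC_apply, h, LinearMap.baseChange_one]

/-- `hcont` in the literal shape of `GBLR83.Tate.exists_embedding`, generically. -/
theorem cont_bc (ρ : G →* Module.End k V) {P : G → Prop} (h : ∀ σ : G, P σ → ρ σ = 1) :
    ∀ σ : G, P σ → rhoBC D ρ σ = 1 := fun σ hσ => eq_one_bc D ρ (h σ hσ)

variable (k) in
/-- `x ↦ 1 ⊗ x`. -/
def incl : V →+ D ⊗[k] V :=
  ((TensorProduct.mk k D V) 1).toAddMonoidHom

@[simp]
theorem incl_apply (x : V) : incl k D x = (1 : D) ⊗ₜ[k] x := rfl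

theorem incl_equivariant (ρ : G →* Module.End k V) (g : G) (x : V) :
    incl k D (ρ g x) = rhoBC D ρ g (incl k D x) := by
  rw [incl_apply, incl_apply, rhoBC_apply_tmul]

theorem incl_smul (c : k) (x : V) : incl k D (c • x) = algebraMap k D c • incl k D x := by
  rw [incl_apply, incl_apply, TensorProduct.smul_tmul', smul_eq_mul, mul_one,
    Algebra.algebraMap_eq_smul_one, TensorProduct.smul_tmul]

theorem incl_injective : Function.Injective (incl k D (V := V)) := by
  intro x y hxy
  exact Module.Flat.tensorProduct_mk_injective k V D hxy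

section Finite

variable [Module.Finite k V]

theorem finrank_bc : Module.finrank D (D ⊗[k] V) = Module.finrank k V :=
  Module.finrank_baseChange

/-- the span of the image transfers. -/
theorem span_bc (ρ : G →* Module.End k V)
    (h : Submodule.span k (Set.range ρ) = ⊤) :
    Submodule.span D (Set.range (rhoBC D ρ)) = ⊤ := by
  classical
  let b := Module.Free.chooseBasis k V
  -- the image of `span_k (range ρ)` lies in `span_D (range ρ_D)`
  have hmem : ∀ f : Module.End k V, f.baseChange D ∈ Submodule.span D (Set.range (rhoBC D ρ)) := by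
    intro f
    have hf : f ∈ Submodule.span k (Set.range ρ) := by rw [h]; exact Submodule.mem_top
    induction hf using Submodule.span_induction with
    | mem x hx =>
      obtain ⟨g, rfl⟩ := hx
      exact Submodule.subset_span ⟨g, rfl⟩
    | zero =>
      rw [LinearMap.baseChange_zero]
      exact Submodule.zero_mem _
    | add x y _ _ hx hy =>
      rw [LinearMap.baseChange_add]
      exact Submodule.add_mem _ hx hy
    | smul c x _ hx =>
      rw [LinearMap.baseChange_smul, ← algebraMap_smul D c (x.baseChange D)]
      exact Submodule.smul_mem _ _ hx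
  rw [eq_top_iff, ← (Algebra.TensorProduct.basis D b).end.span_eq, Submodule.span_le]
  rintro _ ⟨ij, rfl⟩
  rw [← Module.Basis.baseChange_end D b ij]
  exact hmem _

theorem charpoly_bc (ρ : G →* Module.End k V) (g : G) :
    (rhoBC D ρ g).charpoly = (ρ g).charpoly.map (algebraMap k D) := by
  rw [rhoBC_apply, LinearMap.charpoly_baseChange]

/-- the quadratic form of `hchar`. -/
theorem charpoly_bc_quad (ρ : G →* Module.End k V) (g : G) (a l : k)
    (h : (ρ g).charpoly = X ^ 2 - C a * X + C l) :
    (rhoBC D ρ g).charpoly = X ^ 2 - C (algebraMap k D a) * X + C (algebraMap k D l) := by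
  rw [charpoly_bc, h]
  simp only [Polynomial.map_add, Polynomial.map_sub, Polynomial.map_mul, Polynomial.map_pow,
    Polynomial.map_X, Polynomial.map_C]

/-- the quadratic form of `hchar` with integer trace and natural determinant (`k = ZMod p` in the
application: `a = a_ℓ(W)`, `l = ℓ`). -/
theorem charpoly_bc_quad_cast (ρ : G →* Module.End k V) (g : G) (a : ℤ) (l : ℕ)
    (h : (ρ g).charpoly = X ^ 2 - C (a : k) * X + C (l : k)) :
    (rhoBC D ρ g).charpoly = X ^ 2 - C (a : D) * X + C (l : D) := by
  rw [charpoly_bc_quad D ρ g _ _ h, map_intCast, map_natCast]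

end Finite

end Fermat.Agent.T1B.Embed78.BaseChange
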